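/-
S28 [L] toolkit (helper386): the twist automorphism `q ↦ ξ q` of `k((q))`.
-/
import Mathlib
import Fermat.Agent.S28.H386.Toolkit

set_option autoImplicit false

noncomputable section

open ModularCurve HahnSeries Polynomial

namespace Fermat.Agent.S28.H386

variable {k : Type*} [Field k]

/-- Underlying function of the twist `f(q) ↦ f(ξ q)`. -/
def twistFun (ξ : kˣ) (f : LaurentSeries k) : LaurentSeries k where
  coeff n := ((ξ ^ n : kˣ) : k) * f.coeff n
  isPWO_support' := f.isPWO_support.mono fun n hn => by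
    simp only [Function.mem_support, ne_eq] at hn ⊢
    intro h
    exact hn (by rw [h, mul_zero])

@[simp] theorem twistFun_coeff (ξ : kˣ) (f : LaurentSeries k) (n : ℤ) :
    (twistFun ξ f).coeff n = ((ξ ^ n : kˣ) : k) * f.coeff n := rfl

theorem support_twistFun (ξ : kˣ) (f : LaurentSeries k) :
    (twistFun ξ f).support = f.support := by
  ext n
  simp only [HahnSeries.mem_support, twistFun_coeff, ne_eq, mul_eq_zero, Units.ne_zero, false_or]

/-- The twist `f(q) ↦ f(ξ q)` as a ring homomorphism of `k((q))`. -/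
def twist (ξ : kˣ) : LaurentSeries k →+* LaurentSeries k where
  toFun := twistFun ξ
  map_zero' := by ext n; simp
  map_one' := by
    ext n
    rw [twistFun_coeff, HahnSeries.coeff_one]
    split_ifs with h
    · subst h; simp
    · simp
  map_add' x y := by ext n; simp [mul_add]
  map_mul' x y := by
    ext n
    rw [twistFun_coeff, HahnSeries.coeff_mul, HahnSeries.coeff_mul, Finset.mul_sum]
    refine Finset.sum_congr ?_ fun ij hij => ?_
    · ext ij
      rw [Finset.mem_antidiagonal, Finset.mem_antidiagonal, support_twistFun,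
        support_twistFun]
    have hsum : ij.1 + ij.2 = n := (Finset.mem_antidiagonal.mp hij).2.2
    rw [twistFun_coeff, twistFun_coeff, ← hsum, zpow_add, Units.val_mul]
    ring

@[simp] theorem twist_coeff (ξ : kˣ) (f : LaurentSeries k) (n : ℤ) :
    (twist ξ f).coeff n = ((ξ ^ n : kˣ) : k) * f.coeff n := rfl

theorem twist_one (f : LaurentSeries k) : twist (1 : kˣ) f = f := by
  ext n; simp

theorem twist_twist (ξ η : kˣ) (f : LaurentSeries k) :
    twist ξ (twist η f) = twist (ξ * η) f := by
  ext n
  simp only [twist_coeff, mul_zpow, Units.val_mul]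
  ring

theorem twist_injective (ξ : kˣ) : Function.Injective (twist (k := k) ξ) := by
  intro f g h
  have := congrArg (twist ξ⁻¹) h
  simpa [twist_twist, twist_one] using this

theorem twist_single (ξ : kˣ) (n : ℤ) (c : k) :
    twist ξ (HahnSeries.single n c) = HahnSeries.single n (((ξ ^ n : kˣ) : k) * c) := by
  ext m
  rw [twist_coeff]
  by_cases h : m = n
  · subst h; simp
  · simp [HahnSeries.coeff_single_of_ne h]

theorem twist_C (ξ : kˣ) (c : k) : twist ξ (HahnSeries.C c) = HahnSeries.C c := by
  rw [HahnSeries.C_apply, twist_single, zpow_zero, Units.val_one, one_mul]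

/-- The twist fixes the range of `V_p` when `ξ ^ p = 1`. -/
theorem twist_qExpand (ξ : kˣ) (p : ℕ) [NeZero p] (hξ : ξ ^ p = 1) (f : LaurentSeries k) :
    twist ξ (qExpand k p f) = qExpand k p f := by
  ext n
  rw [twist_coeff]
  by_cases hd : (p : ℤ) ∣ n
  · obtain ⟨m, rfl⟩ := hd
    rw [zpow_mul, zpow_natCast, hξ, one_zpow, Units.val_one, one_mul]
  · rw [qExpand_coeff_of_not_dvd p f hd, mul_zero]

/-- `twist` commutes with `V_d` up to raising `ξ` to the `d`-th power. -/
theorem qExpand_twist (ξ : kˣ) (d : ℕ) [NeZero d] (f : LaurentSeries k) :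
    twist ξ (qExpand k d f) = qExpand k d (twist (ξ ^ d) f) := by
  ext n
  rw [twist_coeff]
  by_cases hd : (d : ℤ) ∣ n
  · obtain ⟨m, rfl⟩ := hd
    rw [qExpand_coeff_mul, qExpand_coeff_mul, twist_coeff, zpow_mul, zpow_natCast]
  · rw [qExpand_coeff_of_not_dvd d f hd, qExpand_coeff_of_not_dvd d _ hd, mul_zero]

theorem twist_ne_zero (ξ : kˣ) {f : LaurentSeries k} (hf : f ≠ 0) : twist ξ f ≠ 0 :=
  fun h => hf (twist_injective ξ (by rw [h, map_zero]))

theorem order_twist (ξ : kˣ) (f : LaurentSeries k) : (twist ξ f).order = f.order := by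
  by_cases hf : f = 0
  · simp [hf]
  refine order_eq_of_coeff ?_ ?_
  · rw [twist_coeff]
    exact mul_ne_zero (Units.ne_zero _) (HahnSeries.coeff_order_eq_zero.not.mpr hf)
  · intro m hm
    rw [twist_coeff, HahnSeries.coeff_eq_zero_of_lt_order hm, mul_zero]

theorem coeff_twist_jqModC_neg_one (ξ : kˣ) :
    (twist ξ (jqModC k)).coeff (-1) = ((ξ⁻¹ : kˣ) : k) := by
  rw [twist_coeff, coeff_jqModC_neg_one, mul_one, zpow_neg_one]

end Fermat.Agent.S28.H386
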