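/-
S28 [L] (helper386): prime level.  From `ModPolyData p` (the modular polynomial `Φ_p` with
`Φ_p(j_p, j) = 0 = Φ_p(j, j_p)`) we derive, purely formally in `k((q))`:

* `Φ_p(X, j) = (X - j_p) · B'` with `B'` irreducible over `k((q))` of degree `p`;
* degrees of `j_p` over fields containing `j`, and of `j` over subfields of the range of `V_p`.
-/
import Mathlib
import Fermat.Agent.S28.H386.Twist

set_option autoImplicit false

noncomputable section

open ModularCurve HahnSeries Polynomial

namespace Fermat.Agent.S28.H386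

/-! ### Generalities on `Φ(X, y)` -/

section PhiAt

variable {S T : Type*} [CommRing S] [CommRing T]

/-- Evaluation `ℤ[Y] → S`, `Y ↦ y` (instance-free form). -/
def intEval (y : S) : Polynomial ℤ →+* S := Polynomial.eval₂RingHom (Int.castRingHom S) y

@[simp] theorem intEval_X (y : S) : intEval y Polynomial.X = y := by simp [intEval]

theorem eq_intEval (h : Polynomial ℤ →+* S) : h = intEval (h Polynomial.X) := by
  refine Polynomial.ringHom_ext' (Subsingleton.elim _ _) ?_
  simp

theorem ringHom_comp_intEval (g : S →+* T) (y : S) :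
    g.comp (intEval y) = intEval (g y) := by
  rw [eq_intEval (g.comp (intEval y))]; simp

/-- `Φ(X, y)` as a polynomial over `S`. -/
def phiAt (Φ : Polynomial (Polynomial ℤ)) (y : S) : S[X] :=
  Φ.map (intEval y)

theorem phiAt_map (Φ : Polynomial (Polynomial ℤ)) (g : S →+* T) (y : S) :
    (phiAt Φ y).map g = phiAt Φ (g y) := by
  rw [phiAt, Polynomial.map_map, ringHom_comp_intEval, phiAt]

theorem eval_phiAt (Φ : Polynomial (Polynomial ℤ)) (y x : S) :
    (phiAt Φ y).eval x = Φ.eval₂ (intEval y) x :=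
  Polynomial.eval_map _ _

theorem phiAt_monic {Φ : Polynomial (Polynomial ℤ)} (h : Φ.Monic) (y : S) :
    (phiAt Φ y).Monic := h.map _

theorem natDegree_phiAt [Nontrivial S] {Φ : Polynomial (Polynomial ℤ)} (h : Φ.Monic) (y : S) :
    (phiAt Φ y).natDegree = Φ.natDegree := h.natDegree_map _

theorem eval_phiAt_hom (Φ : Polynomial (Polynomial ℤ)) (g : S →+* T) (y x : S) :
    (phiAt Φ (g y)).eval (g x) = g ((phiAt Φ y).eval x) := by
  rw [← phiAt_map, Polynomial.eval_map, Polynomial.eval₂_hom]

theorem evalAt_eq_intEval {A : Type*} [CommRing A] (y : LaurentSeries A) :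
    evalAt y = intEval y := by
  rw [eq_intEval (evalAt y)]; simp [evalAt]

end PhiAt

variable {k : Type*} [Field k]

/-- `j(q^d)`. -/
abbrev jd (k : Type*) [Field k] (d : ℕ) [NeZero d] : LaurentSeries k := qExpand k d (jqModC k)

theorem jd_ne_zero (d : ℕ) [NeZero d] : jd k d ≠ 0 := qExpand_ne_zero d jqModC_ne_zero

theorem order_jd (d : ℕ) [NeZero d] : (jd k d).order = -(d : ℤ) := by
  rw [jd, order_qExpand, order_jqModC]; ring

theorem jd_injective {d e : ℕ} [NeZero d] [NeZero e] (h : jd k d = jd k e) : d = e := by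
  have := congrArg HahnSeries.order h
  rw [order_jd, order_jd] at this
  omega

theorem qExpand_jd (e d : ℕ) [NeZero e] [NeZero d] :
    qExpand k e (jd k d) = jd k (e * d) := qExpand_qExpand d e _

theorem coeffMap_comp_evalAt (k : Type*) [Field k] (y : LaurentSeries ℤ) :
    (coeffMap (Int.castRingHom k)).comp (evalAt y)
      = intEval (coeffMap (Int.castRingHom k) y) := by
  rw [evalAt_eq_intEval, ringHom_comp_intEval]

section Data

variable {p : ℕ} [NeZero p] (D : ModPolyData p)

/-- `Φ_p(j_p, j) = 0` over any field. -/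
theorem eval_jp_field (k : Type*) [Field k] :
    (phiAt D.Φ (jqModC k)).eval (jd k p) = 0 := by
  have h := congrArg (coeffMap (Int.castRingHom k)) D.eval_jp
  rw [Polynomial.hom_eval₂, map_zero, coeffMap_comp_evalAt, coeffMap_qExpand,
    coeffMap_jqModC] at h
  rw [eval_phiAt]
  exact h

/-- `Φ_p(j, j_p) = 0` over any field. -/
theorem eval_j_field (k : Type*) [Field k] :
    (phiAt D.Φ (jd k p)).eval (jqModC k) = 0 := by
  have h := congrArg (coeffMap (Int.castRingHom k)) D.eval_j
  rw [Polynomial.hom_eval₂, map_zero, coeffMap_comp_evalAt, coeffMap_qExpand,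
    coeffMap_jqModC] at h
  rw [eval_phiAt]
  exact h

/-- `Φ_p(j_{dp}, j_d) = 0`. -/
theorem eval_jdp (k : Type*) [Field k] (d : ℕ) [NeZero d] :
    (phiAt D.Φ (jd k d)).eval (jd k (d * p)) = 0 := by
  have h := congrArg (qExpand k d) (eval_jp_field D k)
  rw [map_zero, ← eval_phiAt_hom, qExpand_jd] at h
  exact h

/-- `Φ_p(j_d, j_{dp}) = 0`. -/
theorem eval_jd (k : Type*) [Field k] (d : ℕ) [NeZero d] :
    (phiAt D.Φ (jd k (d * p))).eval (jd k d) = 0 := by
  have h := congrArg (qExpand k d) (eval_j_field D k)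
  rw [map_zero, ← eval_phiAt_hom, qExpand_jd] at h
  exact h

end Data

/-! ### The factorisation `Φ_p(X, j) = (X - j_p) · B'` over `k((q))` -/

section Factor

variable {p : ℕ} [NeZero p] (D : ModPolyData p) (k : Type*) [Field k]

/-- The cofactor `B' = Φ_p(X, j) / (X - j_p)`. -/
def cofB : (LaurentSeries k)[X] := phiAt D.Φ (jqModC k) /ₘ (X - Polynomial.C (jd k p))

theorem phiAt_j_eq : phiAt D.Φ (jqModC k) = (X - Polynomial.C (jd k p)) * cofB D k :=
  (Polynomial.mul_divByMonic_eq_iff_isRoot.mpr (eval_jp_field D k)).symm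

theorem cofB_monic : (cofB D k).Monic := by
  have h := phiAt_monic D.monic (jqModC k)
  rw [phiAt_j_eq] at h
  exact (Polynomial.monic_X_sub_C _).of_mul_monic_left h

theorem natDegree_cofB : (cofB D k).natDegree = p := by
  rw [cofB, Polynomial.natDegree_divByMonic _ (Polynomial.monic_X_sub_C _),
    natDegree_phiAt D.monic, D.natDegree_eq, Polynomial.natDegree_X_sub_C]
  omega

theorem cofB_ne_one : cofB D k ≠ 1 := by
  intro h
  have := natDegree_cofB D k
  rw [h, Polynomial.natDegree_one] at this
  exact NeZero.ne p this.symm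

theorem cofB_ne_zero : cofB D k ≠ 0 := (cofB_monic D k).ne_zero

/-- `Φ_p(X, j_p) = (X - j_{p²}) · V_p(B')`. -/
theorem phiAt_jp_eq :
    phiAt D.Φ (jd k p) = (X - Polynomial.C (qExpand k p (jd k p))) * (cofB D k).map (qExpand k p) := by
  have h := congrArg (Polynomial.map (qExpand k p)) (phiAt_j_eq D k)
  rw [phiAt_map, Polynomial.map_mul, Polynomial.map_sub, Polynomial.map_X,
    Polynomial.map_C] at h
  exact h

theorem jq_ne_qExpand_jd (hp : 1 < p) : jqModC k ≠ qExpand k p (jd k p) := by
  intro h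
  have := congrArg HahnSeries.order h
  rw [order_jqModC, order_qExpand, order_jd] at this
  have hp' : (1 : ℤ) < p := by exact_mod_cast hp
  nlinarith

theorem eval_j_cofB_map (hp : 1 < p) :
    ((cofB D k).map (qExpand k p)).eval (jqModC k) = 0 := by
  have h := eval_j_field D k
  rw [phiAt_jp_eq, Polynomial.eval_mul, Polynomial.eval_sub, Polynomial.eval_X,
    Polynomial.eval_C, mul_eq_zero] at h
  rcases h with h | h
  · exact absurd (sub_eq_zero.mp h) (jq_ne_qExpand_jd k hp)
  · exact h

/-- `B'` is the "minimal polynomial of `j` over the range of `V_p`", in lifted form. -/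
theorem cofB_dvd_of_eval_map (hp : 1 < p) (G : (LaurentSeries k)[X])
    (h : (G.map (qExpand k p)).eval (jqModC k) = 0) : cofB D k ∣ G := by
  rw [← Polynomial.modByMonic_eq_zero_iff_dvd (cofB_monic D k)]
  by_contra hR
  have hdeg : (G %ₘ cofB D k).natDegree < p := by
    have := Polynomial.natDegree_modByMonic_lt G (cofB_monic D k) (cofB_ne_one D k)
    rwa [natDegree_cofB] at this
  have hG := Polynomial.modByMonic_add_div G (cofB D k)
  have h2 : ((G %ₘ cofB D k).map (qExpand k p)).eval (jqModC k) = 0 := by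
    have h3 := congrArg (fun P => (P.map (qExpand k p)).eval (jqModC k)) hG
    simp only [Polynomial.map_add, Polynomial.map_mul, Polynomial.eval_add,
      Polynomial.eval_mul, eval_j_cofB_map D k hp, zero_mul, add_zero] at h3
    rw [h3, h]
  refine eval_jqModC_ne_zero_of_natDegree_lt p ((G %ₘ cofB D k).map (qExpand k p)) ?_ ?_ ?_ h2
  · exact (Polynomial.map_ne_zero_iff (qExpand_injective p)).mpr hR
  · exact lt_of_le_of_lt Polynomial.natDegree_map_le hdeg
  · intro i
    rw [Polynomial.coeff_map]
    exact ⟨_, rfl⟩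

/-- `B'` is irreducible over `k((q))`. -/
theorem cofB_irreducible (hp : 1 < p) : Irreducible (cofB D k) := by
  rw [(cofB_monic D k).irreducible_iff_natDegree]
  refine ⟨cofB_ne_one D k, fun f g hf hg hfg => ?_⟩
  have hdeg : f.natDegree + g.natDegree = p := by
    rw [← hf.natDegree_mul hg, hfg, natDegree_cofB]
  have hev := eval_j_cofB_map D k hp
  rw [← hfg, Polynomial.map_mul, Polynomial.eval_mul, mul_eq_zero] at hev
  rcases hev with h | h
  · have hd := Polynomial.natDegree_le_of_dvd (cofB_dvd_of_eval_map D k hp f h) hf.ne_zero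
    rw [natDegree_cofB] at hd
    right; omega
  · have hd := Polynomial.natDegree_le_of_dvd (cofB_dvd_of_eval_map D k hp g h) hg.ne_zero
    rw [natDegree_cofB] at hd
    left; omega

/-- `B'` has no roots in `k((q))`. -/
theorem cofB_eval_ne_zero (hp : 1 < p) (c : LaurentSeries k) : (cofB D k).eval c ≠ 0 := by
  intro h
  have h1 := Polynomial.degree_eq_one_of_irreducible_of_root (cofB_irreducible D k hp) h
  have h2 : (cofB D k).natDegree = 1 :=
    Polynomial.natDegree_eq_of_degree_eq_some (by rw [h1]; rfl)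
  rw [natDegree_cofB] at h2
  omega

end Factor

/-! ### Degrees over intermediate fields -/

section Fields

variable {p : ℕ} [NeZero p] (D : ModPolyData p) {k : Type*} [Field k]

include D

theorem aeval_phiAt_mk (F : IntermediateField k (LaurentSeries k)) {y : LaurentSeries k}
    (hy : y ∈ F) (x : LaurentSeries k) :
    Polynomial.aeval x (phiAt D.Φ (⟨y, hy⟩ : F)) = (phiAt D.Φ y).eval x := by
  rw [Polynomial.aeval_def, Polynomial.eval₂_eq_eval_map, phiAt_map]
  rfl

/-- (U1) `j_{dp}` is integral over any field containing `j_d`. -/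
theorem isIntegral_jdp (F : IntermediateField k (LaurentSeries k)) (d : ℕ) [NeZero d]
    (hj : jd k d ∈ F) : IsIntegral F (jd k (d * p)) :=
  ⟨phiAt D.Φ (⟨jd k d, hj⟩ : F), phiAt_monic D.monic _, by
    rw [← Polynomial.aeval_def, aeval_phiAt_mk, eval_jdp]⟩

/-- (U1) `j_{dp}` has degree `≤ p + 1` over any field containing `j_d`. -/
theorem natDegree_minpoly_jdp_le (F : IntermediateField k (LaurentSeries k)) (d : ℕ) [NeZero d]
    (hj : jd k d ∈ F) : (minpoly F (jd k (d * p))).natDegree ≤ p + 1 := by
  have hdvd : minpoly F (jd k (d * p)) ∣ phiAt D.Φ (⟨jd k d, hj⟩ : F) :=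
    minpoly.dvd F _ (by rw [aeval_phiAt_mk, eval_jdp])
  have := Polynomial.natDegree_le_of_dvd hdvd (phiAt_monic D.monic _).ne_zero
  rwa [natDegree_phiAt D.monic, D.natDegree_eq] at this

/-- `j_d` is integral over any field containing `j_{dp}`. -/
theorem isIntegral_jd_of_jdp (F : IntermediateField k (LaurentSeries k)) (d : ℕ) [NeZero d]
    (hj : jd k (d * p) ∈ F) : IsIntegral F (jd k d) :=
  ⟨phiAt D.Φ (⟨jd k (d * p), hj⟩ : F), phiAt_monic D.monic _, by
    rw [← Polynomial.aeval_def, aeval_phiAt_mk, eval_jd]⟩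

theorem natDegree_minpoly_jd_of_jdp_le (F : IntermediateField k (LaurentSeries k)) (d : ℕ)
    [NeZero d] (hj : jd k (d * p) ∈ F) : (minpoly F (jd k d)).natDegree ≤ p + 1 := by
  have hdvd : minpoly F (jd k d) ∣ phiAt D.Φ (⟨jd k (d * p), hj⟩ : F) :=
    minpoly.dvd F _ (by rw [aeval_phiAt_mk, eval_jd])
  have := Polynomial.natDegree_le_of_dvd hdvd (phiAt_monic D.monic _).ne_zero
  rwa [natDegree_phiAt D.monic, D.natDegree_eq] at this

/-- (U2) If `j_d` and `j_{dp}` lie in `F`, then `j_{dp²}` is a root of a monic polynomial of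
degree `p` over `F`. -/
theorem exists_monic_natDegree_eq_aeval_jdpp (hp : 1 < p)
    (F : IntermediateField k (LaurentSeries k)) (d : ℕ) [NeZero d]
    (hj : jd k d ∈ F) (hjp : jd k (d * p) ∈ F) :
    ∃ Q : F[X], Q.Monic ∧ Q.natDegree = p ∧ Polynomial.aeval (jd k (d * p * p)) Q = 0 := by
  set A₀ : F[X] := phiAt D.Φ (⟨jd k (d * p), hjp⟩ : F) with hA₀
  set a : F := ⟨jd k d, hj⟩ with ha
  have hroot : A₀.IsRoot a := by
    have h1 : algebraMap F (LaurentSeries k) (A₀.eval a) = 0 := by
      rw [← Polynomial.aeval_algebraMap_apply_eq_algebraMap_eval, aeval_phiAt_mk]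
      exact eval_jd D k d
    exact (map_eq_zero_iff _ (algebraMap F (LaurentSeries k)).injective).mp h1
  have hfac : (X - Polynomial.C a) * (A₀ /ₘ (X - Polynomial.C a)) = A₀ :=
    Polynomial.mul_divByMonic_eq_iff_isRoot.mpr hroot
  have hA₀monic : A₀.Monic := phiAt_monic D.monic _
  refine ⟨A₀ /ₘ (X - Polynomial.C a), ?_, ?_, ?_⟩
  · have h := hA₀monic
    rw [← hfac] at h
    exact (Polynomial.monic_X_sub_C _).of_mul_monic_left h
  · rw [Polynomial.natDegree_divByMonic _ (Polynomial.monic_X_sub_C _),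
      natDegree_phiAt D.monic, D.natDegree_eq, Polynomial.natDegree_X_sub_C]
    omega
  · have h0 : Polynomial.aeval (jd k (d * p * p)) A₀ = 0 := by
      rw [aeval_phiAt_mk]; exact eval_jdp D k (d * p)
    rw [← hfac, map_mul, mul_eq_zero] at h0
    rcases h0 with h0 | h0
    · exfalso
      rw [map_sub, Polynomial.aeval_X, Polynomial.aeval_C, sub_eq_zero] at h0
      have h1 : jd k (d * p * p) = jd k d := h0
      have h2 := jd_injective h1
      have hd : 0 < d := Nat.pos_of_ne_zero (NeZero.ne d)
      have : d * 1 < d * p * p := by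
        rw [mul_assoc]
        exact Nat.mul_lt_mul_of_pos_left (by nlinarith) hd
      omega
    · exact h0

theorem natDegree_minpoly_jdpp_le (hp : 1 < p)
    (F : IntermediateField k (LaurentSeries k)) (d : ℕ) [NeZero d]
    (hj : jd k d ∈ F) (hjp : jd k (d * p) ∈ F) :
    (minpoly F (jd k (d * p * p))).natDegree ≤ p := by
  obtain ⟨Q, hQ, hdeg, h0⟩ := exists_monic_natDegree_eq_aeval_jdpp D hp F d hj hjp
  have := Polynomial.natDegree_le_of_dvd (minpoly.dvd F _ h0) hQ.ne_zero
  rwa [hdeg] at this

/-- (b2) If `j ∈ F` and `j_p ∉ F` then `j_p` has degree exactly `p + 1` over `F`. -/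
theorem natDegree_minpoly_jp_eq (hp : 1 < p) (F : IntermediateField k (LaurentSeries k))
    (hj : jqModC k ∈ F) (hjp : jd k p ∉ F) :
    (minpoly F (jd k p)).natDegree = p + 1 := by
  have hj1 : jd k 1 ∈ F := by rwa [jd, qExpand_one_apply]
  have hint : IsIntegral F (jd k p) := by
    have := isIntegral_jdp D F 1 hj1
    simpa using this
  set m := minpoly F (jd k p) with hm
  have hmonic : m.Monic := minpoly.monic hint
  set mL := m.map (algebraMap F (LaurentSeries k)) with hmL
  have hmLmonic : mL.Monic := hmonic.map _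
  have hroot : mL.IsRoot (jd k p) := by
    show mL.eval (jd k p) = 0
    rw [hmL, Polynomial.eval_map, ← Polynomial.aeval_def]
    exact minpoly.aeval F _
  have hfac : (X - Polynomial.C (jd k p)) * (mL /ₘ (X - Polynomial.C (jd k p))) = mL :=
    Polynomial.mul_divByMonic_eq_iff_isRoot.mpr hroot
  set m2 := mL /ₘ (X - Polynomial.C (jd k p)) with hm2
  have hm2monic : m2.Monic := by
    have h := hmLmonic
    rw [← hfac] at h
    exact (Polynomial.monic_X_sub_C _).of_mul_monic_left h
  have hdvd0 : m ∣ phiAt D.Φ (⟨jqModC k, hj⟩ : F) :=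
    minpoly.dvd F _ (by rw [aeval_phiAt_mk]; exact eval_jp_field D k)
  have hdvd : mL ∣ phiAt D.Φ (jqModC k) := by
    have := Polynomial.map_dvd (algebraMap F (LaurentSeries k)) hdvd0
    rwa [phiAt_map] at this
  rw [← hfac, phiAt_j_eq] at hdvd
  have hdvd2 : m2 ∣ cofB D k :=
    (mul_dvd_mul_iff_left (Polynomial.X_sub_C_ne_zero _)).mp hdvd
  obtain ⟨r, hr⟩ := hdvd2
  have hrmonic : r.Monic := by
    have h := cofB_monic D k
    rw [hr] at h
    exact hm2monic.of_mul_monic_left h
  have hdegsum : m2.natDegree + r.natDegree = p := by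
    rw [← hm2monic.natDegree_mul hrmonic, ← hr, natDegree_cofB]
  have hmLdeg : mL.natDegree = 1 + m2.natDegree := by
    rw [← hfac, (Polynomial.monic_X_sub_C _).natDegree_mul hm2monic,
      Polynomial.natDegree_X_sub_C]
  have hmdeg : m.natDegree = mL.natDegree := (hmonic.natDegree_map _).symm
  rcases ((cofB_monic D k).irreducible_iff_natDegree.mp (cofB_irreducible D k hp)).2 m2 r
    hm2monic hrmonic hr.symm with h | h
  · exfalso
    have h1 : m.natDegree = 1 := by omega
    have h2 : m.degree = 1 := by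
      rw [Polynomial.degree_eq_natDegree hmonic.ne_zero, h1]; rfl
    obtain ⟨y, hy⟩ := minpoly.mem_range_of_degree_eq_one F (jd k p) h2
    exact hjp (hy ▸ y.2)
  · omega

/-- (b1) `j` has degree at least `p` over any subfield of the range of `V_p` containing `j_p`. -/
theorem le_natDegree_minpoly_j (hp : 1 < p) (F : IntermediateField k (LaurentSeries k))
    (hF : ∀ x ∈ F, x ∈ Set.range (qExpand k p)) (hjp : jd k p ∈ F) :
    p ≤ (minpoly F (jqModC k)).natDegree := by
  have hjp1 : jd k (1 * p) ∈ F := by simpa using hjp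
  have hint : IsIntegral F (jqModC k) := by
    have := isIntegral_jd_of_jdp D F 1 hjp1
    rwa [jd, qExpand_one_apply] at this
  set m := minpoly F (jqModC k) with hm
  have hmonic : m.Monic := minpoly.monic hint
  set mL := m.map (algebraMap F (LaurentSeries k)) with hmL
  have hlift : mL ∈ Polynomial.lifts (qExpand k p) := by
    rw [Polynomial.lifts_iff_coeff_lifts]
    intro n
    rw [hmL, Polynomial.coeff_map]
    exact hF _ (m.coeff n).2
  obtain ⟨G, hG⟩ := (Polynomial.mem_lifts _).mp hlift
  have hev : (G.map (qExpand k p)).eval (jqModC k) = 0 := by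
    rw [hG, hmL, Polynomial.eval_map, ← Polynomial.aeval_def]
    exact minpoly.aeval F _
  have hGne : G ≠ 0 := by
    intro h
    rw [h, Polynomial.map_zero] at hG
    exact (hmonic.map (algebraMap F (LaurentSeries k))).ne_zero hG.symm
  have h1 := Polynomial.natDegree_le_of_dvd (cofB_dvd_of_eval_map D k hp G hev) hGne
  rw [natDegree_cofB] at h1
  have h2 : G.natDegree = mL.natDegree := by
    rw [← hG, Polynomial.natDegree_map_eq_of_injective (qExpand_injective p)]
  have h3 : mL.natDegree = m.natDegree := hmonic.natDegree_map _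
  omega

/-- (b3) `j` has degree exactly `p + 1` over any subfield `F` of the range of `V_p` with
`j_p ∈ F` and `j_{p²} ∉ F`. -/
theorem natDegree_minpoly_j_eq (hp : 1 < p) (F : IntermediateField k (LaurentSeries k))
    (hF : ∀ x ∈ F, x ∈ Set.range (qExpand k p)) (hjp : jd k p ∈ F)
    (hjpp : qExpand k p (jd k p) ∉ F) :
    (minpoly F (jqModC k)).natDegree = p + 1 := by
  have hjp1 : jd k (1 * p) ∈ F := by simpa using hjp
  have hint : IsIntegral F (jqModC k) := by
    have := isIntegral_jd_of_jdp D F 1 hjp1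
    rwa [jd, qExpand_one_apply] at this
  have hge := le_natDegree_minpoly_j D hp F hF hjp
  set m := minpoly F (jqModC k) with hm
  have hmonic : m.Monic := minpoly.monic hint
  set A₀ : F[X] := phiAt D.Φ (⟨jd k p, hjp⟩ : F) with hA₀
  have hA₀monic : A₀.Monic := phiAt_monic D.monic _
  have hdvd : m ∣ A₀ := minpoly.dvd F _ (by rw [aeval_phiAt_mk]; exact eval_j_field D k)
  obtain ⟨N, hN⟩ := hdvd
  have hNmonic : N.Monic := by
    have h := hA₀monic
    rw [hN] at h
    exact hmonic.of_mul_monic_left h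
  have hdegsum : m.natDegree + N.natDegree = p + 1 := by
    rw [← hmonic.natDegree_mul hNmonic, ← hN, natDegree_phiAt D.monic, D.natDegree_eq]
  by_contra hne
  have hN1 : N.natDegree = 1 := by omega
  have hNeq := hNmonic.eq_X_add_C hN1
  set c : F := N.coeff 0 with hc
  have hrootN : N.eval (-c) = 0 := by
    rw [hNeq]; simp
  have hrootA : A₀.eval (-c) = 0 := by
    rw [hN, Polynomial.eval_mul, hrootN, mul_zero]
  have hrootL : (phiAt D.Φ (jd k p)).eval ((-c : F) : LaurentSeries k) = 0 := by
    have h1 : algebraMap F (LaurentSeries k) (A₀.eval (-c)) = 0 := by rw [hrootA, map_zero]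
    rw [← Polynomial.aeval_algebraMap_apply_eq_algebraMap_eval, aeval_phiAt_mk] at h1
    exact h1
  obtain ⟨c', hc'⟩ := hF _ (-c).2
  rw [phiAt_jp_eq, Polynomial.eval_mul, Polynomial.eval_sub, Polynomial.eval_X,
    Polynomial.eval_C, mul_eq_zero] at hrootL
  rcases hrootL with h | h
  · apply hjpp
    rw [← sub_eq_zero.mp h]
    exact (-c).2
  · rw [← hc', Polynomial.eval_map, Polynomial.eval₂_at_apply] at h
    exact cofB_eval_ne_zero D k hp c'
      ((map_eq_zero_iff _ (qExpand_injective p)).mp h)

end Fields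

end Fermat.Agent.S28.H386
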