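/-
S28 [L] (helper386): the root list of `Φ_p(X, j_p)` over a field containing a primitive
`p`-th root of unity:
`Φ_p(X, j(q^p)) = (X - j(q^{p²})) · ∏_{b < p} (X - j(ζ^b q))`.
-/
import Mathlib
import Fermat.Agent.S28.H386.PrimeLevel

set_option autoImplicit false

noncomputable section

open ModularCurve HahnSeries Polynomial

namespace Fermat.Agent.S28.H386

section RootList

variable {p : ℕ} [NeZero p] (D : ModPolyData p) (k : Type*) [Field k]

/-- The twisted conjugates `j(ζ^b q)`, `b < p`. -/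
def twRoots (p : ℕ) (k : Type*) [Field k] (ζ : kˣ) : Multiset (LaurentSeries k) :=
  (Multiset.range p).map fun b => twist (ζ ^ b) (jqModC k)

variable {k}

theorem card_twRoots (ζ : kˣ) : Multiset.card (twRoots p k ζ) = p := by
  simp [twRoots]

theorem order_of_mem_twRoots {ζ : kˣ} {r : LaurentSeries k} (hr : r ∈ twRoots p k ζ) :
    r.order = -1 := by
  obtain ⟨b, -, rfl⟩ := Multiset.mem_map.mp hr
  rw [order_twist, order_jqModC]

theorem twRoots_nodup {ζ : kˣ} (hζ : IsPrimitiveRoot ζ p) : (twRoots p k ζ).Nodup := by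
  refine Multiset.Nodup.map_on ?_ (Multiset.nodup_range p)
  intro a ha b hb hab
  have h := congrArg (fun f => f.coeff (-1)) hab
  simp only [coeff_twist_jqModC_neg_one] at h
  have h2 : (ζ ^ a)⁻¹ = (ζ ^ b)⁻¹ := Units.ext h
  exact hζ.pow_inj (Multiset.mem_range.mp ha) (Multiset.mem_range.mp hb) (inv_injective h2)

theorem twist_comp_qExpand (ξ : kˣ) (hξ : ξ ^ p = 1) :
    (twist ξ).comp (qExpand k p) = qExpand k p :=
  RingHom.ext fun f => twist_qExpand ξ p hξ f

theorem eval_cofB_map_twist (hp : 1 < p) (ξ : kˣ) (hξ : ξ ^ p = 1) :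
    ((cofB D k).map (qExpand k p)).eval (twist ξ (jqModC k)) = 0 := by
  have h := congrArg (twist ξ) (eval_j_cofB_map D k hp)
  rw [map_zero, ← Polynomial.eval₂_at_apply, ← Polynomial.eval_map, Polynomial.map_map,
    twist_comp_qExpand ξ hξ] at h
  exact h

/-- `V_p(B') = ∏_{b < p} (X - j(ζ^b q))`. -/
theorem cofB_map_eq_prod (hp : 1 < p) {ζ : kˣ} (hζ : IsPrimitiveRoot ζ p) :
    (cofB D k).map (qExpand k p)
      = ((twRoots p k ζ).map fun a => X - Polynomial.C a).prod := by
  set A' := (cofB D k).map (qExpand k p) with hA'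
  have hmonic : A'.Monic := (cofB_monic D k).map _
  have hdeg : A'.natDegree = p := by
    rw [hA', (cofB_monic D k).natDegree_map, natDegree_cofB]
  have hle : twRoots p k ζ ≤ A'.roots := by
    rw [Multiset.le_iff_subset (twRoots_nodup hζ)]
    intro r hr
    obtain ⟨b, -, rfl⟩ := Multiset.mem_map.mp hr
    rw [Polynomial.mem_roots hmonic.ne_zero]
    refine eval_cofB_map_twist D hp (ζ ^ b) ?_
    rw [← pow_mul, mul_comm, pow_mul, hζ.pow_eq_one, one_pow]
  have hcard : Multiset.card A'.roots ≤ Multiset.card (twRoots p k ζ) := by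
    rw [card_twRoots, ← hdeg]
    exact Polynomial.card_roots' A'
  have heq : twRoots p k ζ = A'.roots := Multiset.eq_of_le_of_card_le hle hcard
  rw [heq]
  refine (Polynomial.prod_multiset_X_sub_C_of_monic_of_roots_card_eq hmonic ?_).symm
  rw [← heq, card_twRoots, hdeg]

/-- All roots of `Φ_p(X, j_p)`. -/
def allRoots (p : ℕ) [NeZero p] (k : Type*) [Field k] (ζ : kˣ) : Multiset (LaurentSeries k) :=
  qExpand k p (jd k p) ::ₘ twRoots p k ζ

/-- The root list: `Φ_p(X, j_p) = (X - j_{p²}) ∏_{b<p} (X - j(ζ^b q))`. -/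
theorem phiAt_jp_eq_prod (hp : 1 < p) {ζ : kˣ} (hζ : IsPrimitiveRoot ζ p) :
    phiAt D.Φ (jd k p) = ((allRoots p k ζ).map fun a => X - Polynomial.C a).prod := by
  rw [phiAt_jp_eq, cofB_map_eq_prod D hp hζ, allRoots, Multiset.map_cons, Multiset.prod_cons]

theorem order_of_mem_allRoots {ζ : kˣ} {r : LaurentSeries k} (hr : r ∈ allRoots p k ζ) :
    r = qExpand k p (jd k p) ∨ r.order = -1 := by
  rcases Multiset.mem_cons.mp hr with h | h
  · exact Or.inl h
  · exact Or.inr (order_of_mem_twRoots h)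

theorem order_qExpand_jd : (qExpand k p (jd k p)).order = -((p : ℤ) * p) := by
  rw [order_qExpand, order_jd]; ring

theorem allRoots_nodup (hp : 1 < p) {ζ : kˣ} (hζ : IsPrimitiveRoot ζ p) :
    (allRoots p k ζ).Nodup := by
  rw [allRoots, Multiset.nodup_cons]
  refine ⟨fun h => ?_, twRoots_nodup hζ⟩
  have h1 := order_of_mem_twRoots h
  rw [order_qExpand_jd] at h1
  have hp' : (1 : ℤ) < p := by exact_mod_cast hp
  nlinarith

end RootList

end Fermat.Agent.S28.H386
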